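import Mathlib

/-!
Two finite sets with a group action and the same numbers of fixed points have isomorphic rational
permutation modules.
-/

set_option autoImplicit false
set_option linter.unusedSectionVars false

noncomputable section

namespace Fermat.Agent.CFT.Euler

open Matrix

section Mat

variable {G : Type} [Group G] [Finite G]
variable {X : Type} [MulAction G X] [DecidableEq X]

/-- The permutation matrix of a group element. -/
def permMat (X : Type) [MulAction G X] [DecidableEq X] (g : G) : Matrix X X ℚ :=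
  Matrix.of fun i j => if i = g • j then 1 else 0

theorem permMat_one : permMat X (1 : G) = 1 := by
  ext i j
  simp [permMat, Matrix.one_apply]

variable [Fintype X]

theorem permMat_mul (g h : G) : permMat X (g * h) = permMat X g * permMat X h := by
  ext i j
  simp only [permMat, Matrix.mul_apply, Matrix.of_apply, mul_smul]
  rw [Finset.sum_eq_single (h • j) (fun k _ hk => by rw [if_neg hk, mul_zero])
    (fun hk => absurd (Finset.mem_univ _) hk), if_pos rfl, mul_one]

theorem trace_permMat (g : G) :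
    Matrix.trace (permMat X g) = (Finset.univ.filter fun x : X => g • x = x).card := by
  simp [Matrix.trace, permMat, eq_comm]

variable {Y : Type} [MulAction G Y] [DecidableEq Y] [Fintype Y]

/-- The average of all conjugates. -/
def avg [Fintype G] (F : Matrix Y X ℚ) : Matrix Y X ℚ :=
  (Fintype.card G : ℚ)⁻¹ • ∑ g : G, permMat Y g * F * permMat X g⁻¹

/-- Equivariance of a matrix. -/
def Equiv' (G : Type) [Group G] {X Y : Type} [MulAction G X] [DecidableEq X] [Fintype X]
    [MulAction G Y] [DecidableEq Y] [Fintype Y] (F : Matrix Y X ℚ) : Prop :=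
  ∀ g : G, permMat Y g * F = F * permMat X g

variable [Fintype G]

theorem equiv'_avg (F : Matrix Y X ℚ) : Equiv' G (avg (G := G) F) := fun h => by
  rw [avg, Matrix.mul_smul, Matrix.smul_mul, Matrix.mul_sum, Matrix.sum_mul]
  congr 1
  refine Fintype.sum_equiv (_root_.Equiv.mulLeft h) _ _ fun g => ?_
  simp only [_root_.Equiv.coe_mulLeft, _root_.mul_inv_rev, permMat_mul, Matrix.mul_assoc]
  rw [← permMat_mul (X := X) h⁻¹ h, inv_mul_cancel, permMat_one, Matrix.mul_one]

theorem avg_eq_self {F : Matrix Y X ℚ} (hF : Equiv' G F) : avg (G := G) F = F := by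
  have : ∀ g : G, permMat Y g * F * permMat X g⁻¹ = F := fun g => by
    rw [hF g, Matrix.mul_assoc, ← permMat_mul, mul_inv_cancel, permMat_one, Matrix.mul_one]
  rw [avg, Finset.sum_congr rfl fun g _ => this g, Finset.sum_const, Finset.card_univ,
    ← Nat.cast_smul_eq_nsmul ℚ, smul_smul, inv_mul_cancel₀ (Nat.cast_ne_zero.mpr Fintype.card_ne_zero),
    one_smul]

theorem mul_avg_mul {Z W : Type} [MulAction G Z] [DecidableEq Z] [Fintype Z] [MulAction G W]
    [DecidableEq W] [Fintype W] {A : Matrix Z Y ℚ} (hA : Equiv' G A) {B : Matrix X W ℚ}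
    (hB : Equiv' G B) (F : Matrix Y X ℚ) : A * avg (G := G) F * B = avg (G := G) (A * F * B) := by
  rw [avg, avg, Matrix.mul_smul, Matrix.smul_mul, Matrix.mul_sum, Matrix.sum_mul]
  congr 1
  refine Finset.sum_congr rfl fun g _ => ?_
  calc A * (permMat Y g * F * permMat X g⁻¹) * B
      = (A * permMat Y g) * F * (permMat X g⁻¹ * B) := by simp only [Matrix.mul_assoc]
    _ = (permMat Z g * A) * F * (B * permMat W g⁻¹) := by rw [hA g, hB g⁻¹]
    _ = _ := by simp only [Matrix.mul_assoc]

theorem Equiv'.mul {Z : Type} [MulAction G Z] [DecidableEq Z] [Fintype Z] {A : Matrix Z Y ℚ}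
    {B : Matrix Y X ℚ} (hA : Equiv' G A) (hB : Equiv' G B) : Equiv' G (A * B) := fun g => by
  rw [← Matrix.mul_assoc, hA g, Matrix.mul_assoc, hB g, Matrix.mul_assoc]

theorem Equiv'.one_sub {A : Matrix X X ℚ} (hA : Equiv' G A) : Equiv' G (1 - A) := fun g => by
  rw [Matrix.mul_sub, Matrix.sub_mul, hA g, Matrix.mul_one, Matrix.one_mul]

/-- The trace of `F ↦ A F B`. -/
theorem trace_mulLeftRight (A : Matrix Y Y ℚ) (B : Matrix X X ℚ) :
    LinearMap.trace ℚ (Matrix Y X ℚ)
      { toFun := fun F => A * F * B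
        map_add' := fun F F' => by rw [Matrix.mul_add, Matrix.add_mul]
        map_smul' := fun c F => by rw [Matrix.mul_smul, Matrix.smul_mul]; rfl } =
      A.trace * B.trace := by
  rw [LinearMap.trace_eq_matrix_trace ℚ (Matrix.stdBasis ℚ Y X), Matrix.trace,
    Fintype.sum_prod_type, Matrix.trace, Matrix.trace, Finset.sum_mul]
  refine Finset.sum_congr rfl fun i _ => ?_
  rw [Finset.mul_sum]
  refine Finset.sum_congr rfl fun j _ => ?_
  rw [Matrix.diag_apply, LinearMap.toMatrix_apply, Matrix.stdBasis_eq_single]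
  simp [Matrix.stdBasis, Matrix.mul_apply, Matrix.single_apply,
    ite_and]

/-- `F ↦ R (avg F) P`. -/
def compOp (R : Matrix Y Y ℚ) (P : Matrix X X ℚ) : Matrix Y X ℚ →ₗ[ℚ] Matrix Y X ℚ :=
  (Fintype.card G : ℚ)⁻¹ • ∑ g : G,
    { toFun := fun F => (R * permMat Y g) * F * (permMat X g⁻¹ * P)
      map_add' := fun F F' => by rw [Matrix.mul_add, Matrix.add_mul]
      map_smul' := fun c F => by rw [Matrix.mul_smul, Matrix.smul_mul]; rfl }

theorem compOp_apply (R : Matrix Y Y ℚ) (P : Matrix X X ℚ) (F : Matrix Y X ℚ) :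
    compOp (G := G) R P F = R * avg (G := G) F * P := by
  rw [compOp, LinearMap.smul_apply, LinearMap.sum_apply, avg, Matrix.mul_smul, Matrix.smul_mul,
    Matrix.mul_sum, Matrix.sum_mul]
  congr 1
  refine Finset.sum_congr rfl fun g _ => ?_
  show R * permMat Y g * F * (permMat X g⁻¹ * P) = _
  simp only [Matrix.mul_assoc]

theorem trace_compOp (R : Matrix Y Y ℚ) (P : Matrix X X ℚ) :
    LinearMap.trace ℚ _ (compOp (G := G) R P) = (Fintype.card G : ℚ)⁻¹ *
      ∑ g : G, (R * permMat Y g).trace * (permMat X g⁻¹ * P).trace := by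
  rw [compOp, map_smul, map_sum, smul_eq_mul]
  congr 1
  exact Finset.sum_congr rfl fun g _ => trace_mulLeftRight _ _

/-- An equivariant idempotent nonzero on `X` gives a nonzero trace. -/
theorem trace_compOp_self_ne_zero {P : Matrix X X ℚ} (hP : Equiv' G P) (hPP : P * P = P)
    (h0 : P ≠ 0) : LinearMap.trace ℚ _ (compOp (G := G) P P) ≠ 0 := by
  have hproj : LinearMap.IsProj (LinearMap.range (compOp (G := G) P P)) (compOp (G := G) P P) := by
    refine ⟨fun F => ⟨F, rfl⟩, ?_⟩
    rintro _ ⟨F, rfl⟩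
    rw [compOp_apply, compOp_apply,
      avg_eq_self (Equiv'.mul (Equiv'.mul hP (equiv'_avg F)) hP)]
    calc P * (P * avg (G := G) F * P) * P = (P * P) * avg (G := G) F * (P * P) := by
          simp only [Matrix.mul_assoc]
      _ = _ := by rw [hPP]
  rw [hproj.trace]
  have hmem : P ∈ LinearMap.range (compOp (G := G) P P) :=
    ⟨P, by rw [compOp_apply, avg_eq_self hP, hPP, hPP]⟩
  exact Nat.cast_ne_zero.mpr fun h => h0 (by
    rw [Submodule.finrank_eq_zero] at h
    rw [h, Submodule.mem_bot] at hmem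
    exact hmem)

/-- A matrix has a generalised inverse. -/
theorem exists_pseudo_inverse (f : Matrix Y X ℚ) : ∃ h : Matrix X Y ℚ, f * h * f = f := by
  obtain ⟨s, hs⟩ := f.mulVecLin.rangeRestrict.exists_rightInverse_of_surjective
    (LinearMap.range_rangeRestrict _)
  obtain ⟨s', hs'⟩ := LinearMap.exists_extend s
  refine ⟨LinearMap.toMatrix' s', Matrix.ext_of_mulVec_single fun x => ?_⟩
  rw [← Matrix.mulVec_mulVec, ← Matrix.mulVec_mulVec]
  have h1 := LinearMap.congr_fun hs' ⟨f.mulVec (Pi.single x 1), _, rfl⟩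
  simp only [LinearMap.comp_apply, Submodule.subtype_apply] at h1
  rw [LinearMap.toMatrix'_mulVec, h1]
  have h2 := congrArg Subtype.val (LinearMap.congr_fun hs ⟨f.mulVec (Pi.single x 1), _, rfl⟩)
  exact h2

theorem exists_better (hfix : ∀ g : G, (permMat X g).trace = (permMat Y g).trace)
    {f : Matrix Y X ℚ} (hf : Equiv' G f) (hni : ¬ Function.Injective f.mulVec) :
    ∃ f' : Matrix Y X ℚ, Equiv' G f' ∧
      Module.finrank ℚ (LinearMap.range f.mulVecLin) <
        Module.finrank ℚ (LinearMap.range f'.mulVecLin) := by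
  obtain ⟨h₀, hh₀⟩ := exists_pseudo_inverse f
  set h := avg (G := G) h₀ with hh
  have hhe : Equiv' G h := equiv'_avg h₀
  have hfhf : f * h * f = f := by rw [hh, mul_avg_mul hf hf, hh₀, avg_eq_self hf]
  set P : Matrix X X ℚ := 1 - h * f with hP
  set R : Matrix Y Y ℚ := 1 - f * h with hR
  have hPe : Equiv' G P := Equiv'.one_sub (Equiv'.mul hhe hf)
  have hRe : Equiv' G R := Equiv'.one_sub (Equiv'.mul hf hhe)
  have hfP : f * P = 0 := by
    rw [hP, Matrix.mul_sub, Matrix.mul_one, ← Matrix.mul_assoc, hfhf, sub_self]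
  have hRf : R * f = 0 := by rw [hR, Matrix.sub_mul, Matrix.one_mul, hfhf, sub_self]
  have hPP : P * P = P := by
    conv_lhs => arg 1; rw [hP]
    rw [Matrix.sub_mul, Matrix.one_mul, Matrix.mul_assoc, hfP, Matrix.mul_zero, sub_zero]
  have hRR : R * R = R := by
    conv_lhs => arg 2; rw [hR]
    rw [Matrix.mul_sub, Matrix.mul_one, ← Matrix.mul_assoc, hRf, Matrix.zero_mul, sub_zero]
  have hP0 : P ≠ 0 := fun h0 => hni fun a b hab => by
    rw [hP, sub_eq_zero] at h0
    have := congrArg h.mulVec hab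
    rwa [Matrix.mulVec_mulVec, Matrix.mulVec_mulVec, ← h0, Matrix.one_mulVec,
      Matrix.one_mulVec] at this
  have hchar : ∀ g : G, (R * permMat Y g).trace = (P * permMat X g).trace := fun g => by
    rw [hR, hP, Matrix.sub_mul, Matrix.sub_mul, Matrix.one_mul, Matrix.one_mul, Matrix.trace_sub,
      Matrix.trace_sub, hfix g]
    congr 1
    rw [Matrix.mul_assoc f h, Matrix.trace_mul_comm, Matrix.mul_assoc, hf g, ← Matrix.mul_assoc,
      Matrix.trace_mul_comm]
  have htr : LinearMap.trace ℚ _ (compOp (G := G) R P) ≠ 0 := by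
    rw [trace_compOp, Finset.sum_congr rfl fun g _ => by rw [hchar g], ← trace_compOp]
    exact trace_compOp_self_ne_zero hPe hPP hP0
  obtain ⟨F₀, hF₀⟩ : ∃ F₀, compOp (G := G) R P F₀ ≠ 0 := by
    by_contra hno
    push Not at hno
    exact htr (by rw [show compOp (G := G) R P = 0 from LinearMap.ext hno, map_zero])
  rw [compOp_apply] at hF₀
  set F := R * avg (G := G) F₀ * P with hF
  have hFe : Equiv' G F := Equiv'.mul (Equiv'.mul hRe (equiv'_avg F₀)) hPe
  refine ⟨f + F, fun g => by rw [Matrix.mul_add, Matrix.add_mul, hf g, hFe g], ?_⟩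
  have hRF : R * F = F := by rw [hF, ← Matrix.mul_assoc, ← Matrix.mul_assoc, hRR]
  have hFhf : F * (h * f) = 0 := by
    rw [hF, Matrix.mul_assoc]
    rw [show P * (h * f) = 0 by
      rw [show h * f = 1 - P by rw [hP, sub_sub_cancel], Matrix.mul_sub, Matrix.mul_one, hPP,
        sub_self], Matrix.mul_zero]
  have hFP : F * P = F := by rw [hF, Matrix.mul_assoc, hPP]
  refine Submodule.finrank_lt_finrank_of_lt (lt_of_le_of_ne ?_ fun e => hF₀ ?_)
  · rintro _ ⟨x, rfl⟩
    refine ⟨(h * f).mulVec x, ?_⟩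
    rw [Matrix.mulVecLin_apply, Matrix.mulVecLin_apply, Matrix.mulVec_mulVec, Matrix.add_mul,
      hFhf, add_zero, ← Matrix.mul_assoc, hfhf]
  · refine Matrix.ext_of_mulVec_single fun i => ?_
    rw [Matrix.zero_mulVec]
    have hmem : (f + F).mulVec (P.mulVec (Pi.single i 1)) ∈ LinearMap.range f.mulVecLin :=
      e ▸ ⟨_, rfl⟩
    obtain ⟨x, hx⟩ := hmem
    rw [Matrix.mulVecLin_apply, Matrix.mulVec_mulVec, Matrix.add_mul, hfP, zero_add, hFP] at hx
    have := congrArg R.mulVec hx
    rwa [Matrix.mulVec_mulVec, Matrix.mulVec_mulVec, hRf, hRF, Matrix.zero_mulVec, eq_comm] at this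

/-- Equal fixed point counts give an invertible equivariant matrix. -/
theorem exists_equiv_matrix
    (hfix : ∀ g : G, (Finset.univ.filter fun x : X => g • x = x).card =
      (Finset.univ.filter fun y : Y => g • y = y).card) :
    ∃ (f : Matrix Y X ℚ) (h : Matrix X Y ℚ), Equiv' G f ∧ f * h = 1 ∧ h * f = 1 := by
  have htr : ∀ g : G, (permMat X g).trace = (permMat Y g).trace := fun g => by
    rw [trace_permMat, trace_permMat, hfix g]
  have hcard : Fintype.card X = Fintype.card Y := by
    have := hfix 1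
    simpa using this
  set S : Set ℕ := {n | ∃ f : Matrix Y X ℚ, Equiv' G f ∧
    Module.finrank ℚ (LinearMap.range f.mulVecLin) = n} with hS
  have hne : S.Nonempty := ⟨_, 0, fun g => by rw [Matrix.mul_zero, Matrix.zero_mul], rfl⟩
  have hbdd : BddAbove S := ⟨Fintype.card Y, by
    rintro _ ⟨f, -, rfl⟩
    exact (Submodule.finrank_le _).trans (le_of_eq (Module.finrank_fintype_fun_eq_card ℚ))⟩
  obtain ⟨f, hf, hfn⟩ := Nat.sSup_mem hne hbdd
  have hinj : Function.Injective f.mulVec := by
    by_contra hni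
    obtain ⟨f', hf', hlt⟩ := exists_better htr hf hni
    have := le_csSup hbdd ⟨f', hf', rfl⟩
    omega
  have hfr : Module.finrank ℚ (X → ℚ) = Module.finrank ℚ (Y → ℚ) := by
    rw [Module.finrank_fintype_fun_eq_card, Module.finrank_fintype_fun_eq_card, hcard]
  let e := LinearMap.linearEquivOfInjective f.mulVecLin hinj hfr
  refine ⟨f, LinearMap.toMatrix' e.symm.toLinearMap, hf,
    Matrix.ext_of_mulVec_single fun y => ?_, Matrix.ext_of_mulVec_single fun x => ?_⟩
  · rw [← Matrix.mulVec_mulVec, LinearMap.toMatrix'_mulVec, Matrix.one_mulVec]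
    exact e.apply_symm_apply _
  · rw [← Matrix.mulVec_mulVec, LinearMap.toMatrix'_mulVec, Matrix.one_mulVec]
    exact e.symm_apply_apply _

end Mat

end Fermat.Agent.CFT.Euler
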