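import Fermat.Agent.CFT.Euler.Extension

/-!
For a group of order prime to `p`, finite coefficient modules have Euler index zero, so the index
only depends on the coefficient module up to finite kernel and cokernel.
-/

set_option autoImplicit false
set_option linter.unusedSectionVars false
set_option linter.style.haveILetI false

noncomputable section

namespace Fermat.Agent.CFT.Euler

open Fermat.Agent.CFT

variable (G : Type) [Group G]

/-- Equivariant homomorphisms between two modules. -/
def equivFun (A M : Type) [AddCommGroup A] [DistribMulAction G A] [AddCommGroup M]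
    [DistribMulAction G M] : AddSubgroup (A →+ M) where
  carrier := {f | ∀ (g : G) (a : A), f (g • a) = g • f a}
  add_mem' {f f'} hf hf' g a := by
    show f (g • a) + f' (g • a) = g • (f a + f' a)
    rw [hf, hf', smul_add]
  zero_mem' g a := (smul_zero g).symm
  neg_mem' {f} hf g a := by
    show -f (g • a) = g • -f a
    rw [hf, smul_neg]

variable {G} [Fintype G] {p : ℕ} [hp : Fact p.Prime] {A : Type} [AddCommGroup A]
  [DistribMulAction G A] (X : Pres p G A) {M : Type} [AddCommGroup M] [DistribMulAction G M]

omit hp in
/-- The kernel of restriction consists of the homomorphisms out of the quotient. -/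
theorem Pres.card_ker_res : Nat.card (X.res M).ker = Nat.card (equivFun G A M) := by
  refine Nat.card_congr (Equiv.symm (Equiv.ofBijective
    (fun h : equivFun G A M => (⟨⟨h.1.comp X.π, fun g x => by
      show h.1 (X.π (smulS X.hK g x)) = g • h.1 (X.π x)
      rw [X.equi, h.2]⟩, Subtype.ext (AddMonoidHom.ext fun s => by
      show h.1 (X.π _) = 0
      rw [(X.ker _).mpr s.2, map_zero])⟩ : (X.res M).ker)) ⟨fun h h' e => ?_, fun f => ?_⟩))
  · refine Subtype.ext (AddMonoidHom.ext fun a => ?_)
    obtain ⟨x, rfl⟩ := X.surj a
    exact DFunLike.congr_fun (congrArg (fun z => z.1.1) e) x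
  · have hker : X.π.ker ≤ f.1.1.ker := fun x hx =>
      (resHom_eq_zero_iff X.hK X.hS X.le f.1).mp f.2 x ((X.ker x).mp hx)
    let h : A →+ M := AddMonoidHom.liftOfSurjective X.π X.surj ⟨f.1.1, hker⟩
    have hh : ∀ x, h (X.π x) = f.1.1 x := fun x =>
      AddMonoidHom.liftOfRightInverse_comp_apply X.π _ _ ⟨f.1.1, hker⟩ x
    refine ⟨⟨h, fun g a => ?_⟩, Subtype.ext (Subtype.ext (AddMonoidHom.ext hh))⟩
    obtain ⟨x, rfl⟩ := X.surj a
    rw [← X.equi, hh, hh]
    exact f.1.2 g x

variable (hG : Nat.Coprime p (Nat.card G))

include hG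

/-- Coefficients killed by `p` have index zero. -/
theorem Pres.index_eq_zero_of_killed (hM : ∀ m : M, p • m = 0) : X.index M = 0 := by
  let δ : equivHom (C := M) X.hS →+ equivFun G A M :=
    (X.conn (AddMonoidHom.id M) hM).codRestrict _ fun f g a => by
      obtain ⟨x, rfl⟩ := X.surj a
      rw [X.conn_smul, X.conn_apply]
      rfl
  have hδ : Function.Surjective δ := by
    intro h
    obtain ⟨g₀, hg₀⟩ := X.exists_mulP_eq hM h.1
    obtain ⟨f, hf⟩ := exists_avg hG hM X.hS g₀
    refine ⟨f, Subtype.ext (AddMonoidHom.ext fun a => ?_)⟩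
    obtain ⟨x, rfl⟩ := X.surj a
    refine (X.conn_apply _ _ _ x).trans (hf _ _ fun g => ?_)
    rw [smulS_mulP, ← coe_smulS X.hK g x, hg₀, X.equi, h.2]
  have hrange : (X.res M).range = δ.ker := by
    refine le_antisymm ?_ fun f hf => ?_
    · rintro _ ⟨g, rfl⟩
      exact Subtype.ext (X.conn_res _ _ g)
    · obtain ⟨g₀, hg₀⟩ := exists_extend_killed hM X.le (fun s _ => X.level s) f.1 fun s hs =>
        (X.conn_apply _ hM f ⟨s, hs⟩).symm.trans
          (DFunLike.congr_fun (congrArg Subtype.val (AddMonoidHom.mem_ker.mp hf)) _)
      obtain ⟨g, hg⟩ := exists_avg hG hM X.hK g₀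
      exact ⟨g, Subtype.ext (AddMonoidHom.ext fun t => hg _ _ fun h =>
        (hg₀ (smulS X.hS h t)).trans (f.2 h t))⟩
  rw [Pres.index, lpIndex, hrange, AddSubgroup.index_ker, AddMonoidHom.range_eq_top.mpr hδ,
    AddSubgroup.card_top, X.card_ker_res, sub_self]

/-- Finite coefficient modules have index zero. -/
theorem Pres.index_eq_zero_of_finite [Finite M] : X.index M = 0 := by
  suffices H : ∀ (n : ℕ) (N : Type) [AddCommGroup N] [DistribMulAction G N] [Finite N],
      Nat.card N = n → X.index N = 0 from H _ M rfl
  intro n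
  induction n using Nat.strong_induction_on with
  | _ n ih =>
  intro N _ _ _ hn
  let μ := (nsmulAddMonoidHom p : N →+ N)
  by_cases hk : μ.ker = ⊥
  · -- multiplication by `p` is bijective
    have hinj : Function.Injective μ := (AddMonoidHom.ker_eq_bot_iff _).mp hk
    let e : N ≃+ N := AddEquiv.ofBijective μ (Finite.injective_iff_bijective.mp hinj)
    have he : ∀ (g : G) (x : N), e.symm (g • x) = g • e.symm x := fun g x => e.injective (by
      rw [e.apply_symm_apply]
      show g • x = p • g • e.symm x
      rw [smul_comm p g]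
      exact congrArg (g • ·) (e.apply_symm_apply x).symm)
    have hsurj : Function.Surjective (X.res N) := fun f => by
      let m : X.K →+ X.S := (mulP X.level).comp X.K.subtype
      refine ⟨⟨e.symm.toAddMonoidHom.comp (f.1.comp m), fun g x => ?_⟩,
        Subtype.ext (AddMonoidHom.ext fun s => e.injective ?_)⟩
      · show e.symm (f.1 (m _)) = g • e.symm (f.1 (m x))
        rw [show m (smulS X.hK g x) = smulS X.hS g (m x) from
          Subtype.ext (smul_comm g p (x : X.P)).symm, f.2, he]
      · show e (e.symm (f.1 (mulP X.level (s : X.P)))) = p • f.1 s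
        rw [e.apply_symm_apply, mulP_coe, map_nsmul]
    have hker : (X.res N).ker = ⊥ := by
      refine (AddSubgroup.eq_bot_iff_forall _).mpr fun f hf => Subtype.ext
        (AddMonoidHom.ext fun x => hinj ?_)
      show p • f.1 x = p • (0 : X.K →+ N) x
      rw [← map_nsmul, (resHom_eq_zero_iff X.hK X.hS X.le f).mp hf (p • x) (X.level x),
        AddMonoidHom.zero_apply, smul_zero]
    rw [Pres.index, lpIndex, AddMonoidHom.range_eq_top.mpr hsurj, AddSubgroup.index_top, hker,
      AddSubgroup.card_bot, sub_self]
  · have hker : IsStable G μ.ker := isStable_ker fun g x => smul_comm p g x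
    have hran : IsStable G μ.range := isStable_range fun g x => smul_comm p g x
    letI := stableAction hker
    letI := stableAction hran
    have h1 : X.index μ.ker = 0 := X.index_eq_zero_of_killed hG fun x => Subtype.ext x.2
    have hlt : Nat.card μ.range < n := by
      have h := μ.ker.card_mul_index
      rw [AddSubgroup.index_ker, hn] at h
      have h1 : 1 < Nat.card μ.ker := AddSubgroup.one_lt_card_iff_ne_bot _ |>.mpr hk
      have h2 : 0 < Nat.card μ.range := Nat.card_pos
      calc Nat.card μ.range = 1 * Nat.card μ.range := (one_mul _).symm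
        _ < Nat.card μ.ker * Nat.card μ.range := (Nat.mul_lt_mul_right h2).mpr h1
        _ = n := h
    rw [X.index_add μ.ker.subtype μ.rangeRestrict (fun _ _ => rfl)
      (fun g x => Subtype.ext (smul_comm p g x)) Subtype.val_injective
      (fun y hy => ⟨⟨y, congrArg Subtype.val hy⟩, rfl⟩) (fun x => Subtype.ext x.2)
      μ.rangeRestrict_surjective (good_of_coprime p G _ hG) .of_finite .of_finite, h1,
      ih _ hlt μ.range rfl, add_zero]

/-- The index only depends on the coefficients up to finite kernel and cokernel. -/
theorem Pres.index_eq_of_finiteIndex {M' : Type} [AddCommGroup M'] [DistribMulAction G M']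
    (f : M →+ M') (hf : ∀ (g : G) (m : M), f (g • m) = g • f m) [Finite f.ker]
    (hidx : f.range.index ≠ 0) (hM : ModPFinite p M) (hM' : ModPFinite p M') :
    X.index M = X.index M' := by
  have hker : IsStable G f.ker := isStable_ker hf
  have hran : IsStable G f.range := isStable_range hf
  letI := stableAction hker
  letI := stableAction hran
  letI := quotAction hran
  haveI : f.range.FiniteIndex := ⟨hidx⟩
  haveI : Finite (M' ⧸ f.range) := AddSubgroup.finite_quotient_of_finiteIndex
  have hR : ModPFinite p f.range :=
    ⟨hM'.of_injective f.range.subtype Subtype.val_injective,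
      hM.of_surjective f.rangeRestrict f.rangeRestrict_surjective⟩
  rw [X.index_add f.ker.subtype f.rangeRestrict (fun _ _ => rfl)
      (fun g x => Subtype.ext (hf g x)) Subtype.val_injective
      (fun y hy => ⟨⟨y, congrArg Subtype.val hy⟩, rfl⟩) (fun x => Subtype.ext x.2)
      f.rangeRestrict_surjective (good_of_coprime p G _ hG) .of_finite hR,
    X.index_eq_zero_of_finite hG (M := f.ker), zero_add,
    X.index_add f.range.subtype (QuotientAddGroup.mk' f.range) (fun _ _ => rfl) (fun _ _ => rfl)
      Subtype.val_injective
      (fun y hy => ⟨⟨y, (QuotientAddGroup.eq_zero_iff _).mp hy⟩, rfl⟩)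
      (fun x => (QuotientAddGroup.eq_zero_iff _).mpr x.2)
      (QuotientAddGroup.mk'_surjective _) (good_of_coprime p G _ hG) hR .of_finite,
    X.index_eq_zero_of_finite hG (M := M' ⧸ f.range), add_zero]

end Fermat.Agent.CFT.Euler
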