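import Mathlib

/-!
Vocabulary for Euler characteristic counts of finite modules killed by a prime: coinduced modules
from a subgroup and functions that are additive in short exact sequences, and extension of
homomorphisms into groups killed by the prime.
-/

set_option autoImplicit false
set_option linter.unusedSectionVars false

noncomputable section

namespace Fermat.Agent.CFT.Euler

variable {G : Type} [Group G]

/-- Functions on a set with a group action, with values in a module, with the diagonal action. -/
def FunMod (X A : Type) : Type := X → A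

namespace FunMod

variable {G : Type} [Group G] {X A : Type} [AddCommGroup A]

instance : AddCommGroup (FunMod X A) := inferInstanceAs (AddCommGroup (X → A))

instance [Finite X] [Finite A] : Finite (FunMod X A) := inferInstanceAs (Finite (X → A))

theorem nsmul_eq_zero {p : ℕ} (hA : ∀ a : A, p • a = 0) (f : FunMod X A) : p • f = 0 :=
  funext fun x => hA (f x)

variable [MulAction G X] [DistribMulAction G A]

instance : DistribMulAction G (FunMod X A) where
  smul g f := fun x => g • f (g⁻¹ • x)
  one_smul f := funext fun x => show (1 : G) • f ((1 : G)⁻¹ • x) = f x by simp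
  mul_smul a b f := funext fun x => by
    show (a * b) • f ((a * b)⁻¹ • x) = a • b • f (b⁻¹ • a⁻¹ • x)
    simp [mul_smul]
  smul_zero g := funext fun x => smul_zero g
  smul_add g f f' := funext fun x => smul_add g _ _

theorem smul_apply (g : G) (f : FunMod X A) (x : X) : (g • f) x = g • f (g⁻¹ • x) := rfl

end FunMod

/-- Functions on `G ⧸ C` with values in a `G`-module, with the diagonal action. -/
abbrev CoindQ (C : Subgroup G) (A : Type) : Type := FunMod (G ⧸ C) A

/-- A function attaching an integer to each finite module killed by `p`. -/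
abbrev ModInvariant (G : Type) [Group G] (p : ℕ) : Type 1 :=
  ∀ (A : Type) [AddCommGroup A] [DistribMulAction G A] [Finite A], (∀ a : A, p • a = 0) → ℤ

/-- Additivity in short exact sequences of finite modules killed by `p`. -/
def IsAdditive {p : ℕ} (ψ : ModInvariant G p) : Prop :=
  ∀ (A B C : Type) [AddCommGroup A] [DistribMulAction G A] [Finite A]
    [AddCommGroup B] [DistribMulAction G B] [Finite B]
    [AddCommGroup C] [DistribMulAction G C] [Finite C]
    (hA : ∀ a : A, p • a = 0) (hB : ∀ b : B, p • b = 0) (hC : ∀ c : C, p • c = 0)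
    (f : A →+ B) (g : B →+ C),
    (∀ (s : G) (a : A), f (s • a) = s • f a) → (∀ (s : G) (b : B), g (s • b) = s • g b) →
    Function.Injective f → Function.Exact f g → Function.Surjective g →
    ψ B hB = ψ A hA + ψ C hC

/-- Vanishing on everything coinduced from cyclic subgroups of order prime to `p`. -/
def VanishesOnCyclic {p : ℕ} [Finite G] (ψ : ModInvariant G p) : Prop :=
  ∀ C : Subgroup G, IsCyclic C → Nat.Coprime p (Nat.card C) →
    ∀ (A : Type) [AddCommGroup A] [DistribMulAction G A] [Finite A] (hA : ∀ a : A, p • a = 0),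
      ψ (CoindQ C A) (FunMod.nsmul_eq_zero hA) = 0

/-- Extension from a subgroup of a `ZMod p`-module. -/
theorem exists_extend_zmod {p : ℕ} [Fact p.Prime] {Q N : Type*} [AddCommGroup Q] [AddCommGroup N]
    [Module (ZMod p) Q] [Module (ZMod p) N] (W : AddSubgroup Q) (f : W →+ N) :
    ∃ L : Q →+ N, ∀ w : W, L w = f w := by
  obtain ⟨χ, hχ⟩ := LinearMap.exists_extend (p := AddSubgroup.toZModSubmodule p W)
    (AddMonoidHom.toZModLinearMap p (f : (AddSubgroup.toZModSubmodule p W) →+ N))
  exact ⟨χ.toAddMonoidHom, fun x => LinearMap.congr_fun hχ ⟨x, x.2⟩⟩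

/-- A partial homomorphism to a vector space killed by `p`, trivial on multiples of `p`, extends. -/
theorem exists_extend_mod_prime {p : ℕ} [Fact p.Prime] {L A : Type*} [AddCommGroup L]
    [AddCommGroup A]
    (hA : ∀ a : A, p • a = 0) (S : AddSubgroup L) (φ : S →+ A)
    (h : ∀ (l : L) (hl : p • l ∈ S), φ ⟨p • l, hl⟩ = 0) :
    ∃ χ : L →+ A, ∀ x : S, χ x = φ x := by
  let P : AddSubgroup L := (nsmulAddMonoidHom (α := L) p).range
  have hQ : ∀ q : L ⧸ P, p • q = 0 := fun q => by
    obtain ⟨x, rfl⟩ := QuotientAddGroup.mk_surjective q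
    rw [← QuotientAddGroup.mk_nsmul, QuotientAddGroup.eq_zero_iff]
    exact ⟨x, rfl⟩
  let : Module (ZMod p) (L ⧸ P) := AddCommGroup.zmodModule hQ
  let : Module (ZMod p) A := AddCommGroup.zmodModule hA
  let π := QuotientAddGroup.mk' P
  let S' : AddSubgroup (L ⧸ P) := S.map π
  have hmem : ∀ z : S', ∃ x : S, π x = z := fun z => by
    obtain ⟨x, hx, e⟩ := z.2
    exact ⟨⟨x, hx⟩, e⟩
  choose r hr using hmem
  have key : ∀ x y : S, π x = π y → φ x = φ y := fun x y e => by
    have : π ((x : L) - y) = 0 := by rw [map_sub, e, sub_self]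
    obtain ⟨l, hl⟩ := (QuotientAddGroup.eq_zero_iff _).mp this
    rw [nsmulAddMonoidHom_apply] at hl
    have h2 := h l (hl ▸ (x - y).2)
    rw [← sub_eq_zero, ← map_sub, ← h2]
    exact congrArg φ (Subtype.ext hl.symm)
  let ψ₀ : S' →+ A := AddMonoidHom.mk' (fun z => φ (r z)) fun a b => by
    rw [← map_add]
    exact key _ _ (by rw [hr]; simp [hr])
  obtain ⟨χ, hχ⟩ := exists_extend_zmod (p := p) S' ψ₀
  refine ⟨χ.comp π, fun x => ?_⟩
  refine (hχ ⟨π x, x, x.2, rfl⟩).trans ?_
  exact key _ _ (hr ⟨π x, x, x.2, rfl⟩)

end Fermat.Agent.CFT.Euler
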