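import Fermat.Agent.CFT.Euler.Pair
import Fermat.Agent.CFT.Euler.Defs
import Fermat.Agent.CFT.Coh.Lattice

/-!
The Euler index of a finite module and its additivity in short exact sequences.
-/

set_option autoImplicit false
set_option linter.unusedSectionVars false
set_option linter.style.haveILetI false

noncomputable section

namespace Fermat.Agent.CFT.Euler

open Fermat.Agent.CFT

variable (p : ℕ) [hp : Fact p.Prime] {G : Type} [Group G] [Fintype G]
variable {A : Type} [AddCommGroup A] [DistribMulAction G A] [Finite A]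

/-- The canonical presentation of a finite module killed by `p`. -/
def canonPres (hA : ∀ a : A, p • a = 0) : Pres p G A :=
  letI := Fintype.ofFinite A
  have hsmul : ∀ (g : G) (x : Lat G A),
      Lat.ofBasis (fun a h => h • a) (g • x) = g • Lat.ofBasis (fun a h => h • a) x := fun g =>
    Lat.map_smul_of_basis _ g fun a h => by simp [mul_smul]
  { P := Lat G A
    induced := Lat.isInduced
    K := ⊤
    S := (Lat.ofBasis fun (a : A) (h : G) => h • a).ker
    hK := fun _ _ _ => trivial
    hS := fun g x hx => by
      rw [AddMonoidHom.mem_ker] at hx ⊢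
      rw [hsmul, hx, smul_zero]
    le := le_top
    level := fun x => by rw [AddMonoidHom.mem_ker, map_nsmul]; exact hA _
    π := (Lat.ofBasis fun (a : A) (h : G) => h • a).comp (⊤ : AddSubgroup (Lat G A)).subtype
    surj := fun a => ⟨⟨Lat.e a 1, trivial⟩, by simp⟩
    ker := fun _ => Iff.rfl
    equi := fun g x => hsmul g x.1 }

/-- The Euler index of a finite module killed by `p` with coefficients in `M`. -/
def eMod (M : Type) [AddCommGroup M] [DistribMulAction G M] (hA : ∀ a : A, p • a = 0) : ℤ :=
  (canonPres p (G := G) hA).index M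

variable {M : Type} [AddCommGroup M] [DistribMulAction G M]

theorem eMod_eq_index (hGood : Good p G M) (hA : ∀ a : A, p • a = 0) (X : Pres p G A) :
    eMod p (G := G) M hA = X.index M := Pres.index_eq _ X hGood

/-- Coefficients in `M` give an additive invariant. -/
theorem isAdditive_eMod (hGood : Good p G M) (hM : ModPFinite p M) :
    IsAdditive (fun _A _ _ _ hA => eMod p (G := G) M hA : ModInvariant G p) := by
  intro A B C _ _ _ _ _ _ _ _ _ hA hB hC f g hf hg hfi hfg hgs
  show eMod p (G := G) M hB = eMod p (G := G) M hA + eMod p (G := G) M hC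
  set X := canonPres p (G := G) hB with hX
  let K' : AddSubgroup X.P := (g.comp X.π).ker.map X.K.subtype
  have hmem : ∀ x : X.K, (x : X.P) ∈ K' ↔ g (X.π x) = 0 := fun x => by
    refine ⟨?_, fun h => ⟨x, h, rfl⟩⟩
    rintro ⟨y, hy, e⟩
    rwa [← show y = x from Subtype.ext e]
  have hK' : IsStable G K' := by
    rintro s _ ⟨y, hy, rfl⟩
    exact (hmem (smulS X.hK s y)).mpr (by rw [X.equi, hg, show g (X.π y) = 0 from hy, smul_zero])
  have hK'le : K' ≤ X.K := by rintro _ ⟨y, -, rfl⟩; exact y.2
  have hSK' : X.S ≤ K' := fun x hx => (hmem ⟨x, X.le hx⟩).mpr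
    ((congrArg g ((X.ker ⟨x, X.le hx⟩).mpr hx)).trans (map_zero g))
  have hlift : ∀ x : K', ∃ a : A, f a = X.π ⟨x, hK'le x.2⟩ := fun x =>
    (hfg _).mp ((hmem _).mp x.2)
  choose φ hφ using hlift
  let π₁ : K' →+ A := AddMonoidHom.mk' φ fun x y => hfi (by
    rw [map_add, hφ, hφ, hφ, ← map_add]; rfl)
  let Y₁ : Pres p G A :=
    { P := X.P
      induced := X.induced
      K := K'
      S := X.S
      hK := hK'
      hS := X.hS
      le := hSK'
      level := X.level
      π := π₁
      surj := fun a => by
        obtain ⟨x, hx⟩ := X.surj (f a)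
        have hxK : (x : X.P) ∈ K' := (hmem x).mpr (by rw [hx]; exact hfg.apply_apply_eq_zero a)
        exact ⟨⟨x, hxK⟩, hfi ((hφ _).trans hx)⟩
      ker := fun x => by
        rw [← X.ker ⟨x, hK'le x.2⟩, ← hφ x]
        exact ⟨fun h => by rw [show φ x = 0 from h, map_zero],
          fun h => hfi (by rw [map_zero]; exact h)⟩
      equi := fun s x => hfi (by
        rw [hf]
        show f (φ _) = s • f (φ x)
        rw [hφ, hφ]
        exact X.equi s ⟨x, hK'le x.2⟩) }
  let Y₂ : Pres p G C :=
    { P := X.P
      induced := X.induced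
      K := X.K
      S := K'
      hK := X.hK
      hS := hK'
      le := hK'le
      level := fun x => hSK' (X.level x)
      π := g.comp X.π
      surj := hgs.comp X.surj
      ker := fun x => (hmem x).symm
      equi := fun s x => by
        show g (X.π _) = s • g (X.π x)
        rw [X.equi, hg] }
  rw [eMod_eq_index p hGood hA Y₁, eMod_eq_index p hGood hC Y₂]
  show lpIndex p (resHom (M := M) X.hK X.hS X.le) = _
  rw [← resHom_comp hK' X.hS hSK' X.hK hK'le]
  show lpIndex p ((Y₁.res M).comp (Y₂.res M)) = _
  rw [lpIndex_comp p (Y₂.finiteIndexHom hM) (Y₁.finiteIndexHom hM), add_comm]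
  rfl

end Fermat.Agent.CFT.Euler
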