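import Fermat.Agent.CFT.Euler.Additive
import Fermat.Agent.CFT.Euler.Defs

/-!
Extension of homomorphisms into modules killed by `p`, and averaging over a group of order prime
to `p`.
-/

set_option autoImplicit false
set_option linter.unusedSectionVars false
set_option linter.style.haveILetI false

noncomputable section

namespace Fermat.Agent.CFT.Euler

open Fermat.Agent.CFT

variable {p : ℕ} [hp : Fact p.Prime] {P : Type*} [AddCommGroup P] {M : Type*} [AddCommGroup M]

/-- A homomorphism on `T` killing `p S` extends to `S` when the target is killed by `p`. -/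
theorem exists_extend_killed (hM : ∀ m : M, p • m = 0) {T S : AddSubgroup P} (hle : T ≤ S)
    (hmem : ∀ s ∈ S, p • s ∈ T) (f : T →+ M)
    (hf : ∀ (s : P) (hs : s ∈ S), f ⟨p • s, hmem s hs⟩ = 0) :
    ∃ g : S →+ M, ∀ t : T, g (AddSubgroup.inclusion hle t) = f t := by
  obtain ⟨χ, hχ⟩ := exists_extend_mod_prime hM (T.addSubgroupOf S)
    (f.comp (AddSubgroup.addSubgroupOfEquivOfLe hle).toAddMonoidHom) fun l hl =>
      (congrArg f (Subtype.ext rfl)).trans (hf l l.2)
  exact ⟨χ, fun t => (hχ ⟨AddSubgroup.inclusion hle t, t.2⟩).trans (congrArg f (Subtype.ext rfl))⟩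

variable {G : Type*} [Group G] [Fintype G] [DistribMulAction G P] [DistribMulAction G M]

/-- Averaging over a group of order prime to `p`, for targets killed by `p`. -/
theorem exists_avg (hG : Nat.Coprime p (Nat.card G)) (hM : ∀ m : M, p • m = 0)
    {S : AddSubgroup P} (hS : IsStable G S) (g₀ : S →+ M) :
    ∃ g : equivHom (C := M) hS, ∀ (s : S) (m : M),
      (∀ h : G, g₀ (smulS hS h s) = h • m) → g.1 s = m := by
  obtain ⟨a, b, hab⟩ : IsCoprime (p : ℤ) (Nat.card G : ℤ) := Nat.isCoprime_iff_coprime.mpr hG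
  refine ⟨⟨b • normOn hS g₀, fun g s => ?_⟩, fun s m hm => ?_⟩
  · show b • normOn hS g₀ (smulS hS g s) = g • b • normOn hS g₀ s
    rw [isEquivariantOn_normOn hS g₀ g s, smul_comm]
  · show b • normOn hS g₀ s = m
    have e : normOn hS g₀ s = (Nat.card G : ℤ) • m := by
      rw [normOn_apply, natCast_zsmul, Nat.card_eq_fintype_card, ← Finset.card_univ,
        ← Finset.sum_const]
      exact Finset.sum_congr rfl fun g _ => by rw [hm, smul_inv_smul]
    rw [e, smul_smul]
    calc (b * (Nat.card G : ℤ)) • m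
        = (a * (p : ℤ) + b * (Nat.card G : ℤ)) • m := by
          rw [add_smul, mul_smul a, natCast_zsmul, hM, smul_zero, zero_add]
      _ = m := by rw [hab, one_smul]

section Conn

variable {G A M N : Type} [Group G] [Fintype G] [AddCommGroup A] [DistribMulAction G A]
  [AddCommGroup M] [DistribMulAction G M] [AddCommGroup N] (X : Pres p G A)

/-- The connecting map: evaluate at `p` times a lift, and reduce. -/
def Pres.conn (red : M →+ N) (hred : ∀ m, red (p • m) = 0) :
    equivHom (C := M) X.hS →+ (A →+ N) :=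
  AddMonoidHom.mk' (fun f => AddMonoidHom.liftOfSurjective X.π X.surj
    ⟨red.comp (f.1.comp ((mulP X.level).comp X.K.subtype)), fun x hx => by
      show red (f.1 ⟨p • (x : X.P), _⟩) = 0
      rw [show (⟨p • (x : X.P), _⟩ : X.S) = p • ⟨x, (X.ker x).mp hx⟩ from rfl, map_nsmul, hred]⟩)
    fun f f' => AddMonoidHom.ext fun a => by
      obtain ⟨x, rfl⟩ := X.surj a
      simp [AddMonoidHom.liftOfRightInverse_comp_apply]

theorem Pres.conn_apply (red : M →+ N) (hred : ∀ m, red (p • m) = 0)
    (f : equivHom (C := M) X.hS) (x : X.K) :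
    X.conn red hred f (X.π x) = red (f.1 (mulP X.level (x : X.P))) :=
  AddMonoidHom.liftOfRightInverse_comp_apply X.π _ _
    (⟨_, _⟩ : { g : X.K →+ N // X.π.ker ≤ g.ker }) x

theorem Pres.conn_smul (red : M →+ N) (hred : ∀ m, red (p • m) = 0)
    (f : equivHom (C := M) X.hS) (g : G) (x : X.K) :
    X.conn red hred f (g • X.π x) = red (g • f.1 (mulP X.level (x : X.P))) := by
  rw [← X.equi, conn_apply, coe_smulS, ← smulS_mulP X.hS X.level, f.2]

theorem Pres.conn_res (red : M →+ N) (hred : ∀ m, red (p • m) = 0)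
    (g : equivHom (C := M) X.hK) : X.conn red hred (X.res M g) = 0 := by
  refine AddMonoidHom.ext fun a => ?_
  obtain ⟨x, rfl⟩ := X.surj a
  rw [conn_apply]
  show red (g.1 (p • x)) = 0
  rw [map_nsmul, hred]

/-- Homomorphisms out of the quotient are values at `p` times a lift. -/
theorem Pres.exists_mulP_eq (hN : ∀ n : N, p • n = 0) (h : A →+ N) :
    ∃ g : X.S →+ N, ∀ x : X.K, g (mulP X.level (x : X.P)) = h (X.π x) := by
  let μ : X.K →+ X.S := (mulP X.level).comp X.K.subtype
  have hμ : Function.Injective μ := fun x y e => Subtype.ext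
    (smul_right_injective X.P (Int.natCast_ne_zero.mpr hp.out.ne_zero : (p : ℤ) ≠ 0)
      (show (p : ℤ) • (x : X.P) = (p : ℤ) • (y : X.P) by
        rw [natCast_zsmul, natCast_zsmul]; exact congrArg Subtype.val e))
  let e := AddMonoidHom.ofInjective hμ
  obtain ⟨g, hg⟩ := exists_extend_mod_prime hN μ.range ((h.comp X.π).comp e.symm.toAddMonoidHom)
    fun l hl => by
      show h (X.π (e.symm ⟨p • l, hl⟩)) = 0
      rw [show e.symm ⟨p • l, hl⟩ = AddSubgroup.inclusion X.le l from
          e.injective (by rw [e.apply_symm_apply]; exact Subtype.ext rfl),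
        (X.ker _).mpr l.2, map_zero]
  exact ⟨g, fun x => (hg (e x)).trans (congrArg (fun y => h (X.π y)) (e.symm_apply_apply x))⟩

end Conn

end Fermat.Agent.CFT.Euler
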