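import Fermat.Agent.CFT.Euler.Identity

/-!
The character of a unit module from a valuation map and a family of independent units.
-/

set_option autoImplicit false
set_option linter.unusedSectionVars false
set_option linter.style.haveILetI false

noncomputable section

namespace Fermat.Agent.CFT.Euler

open Fermat.Agent.CFT

variable {p : ℕ} [hp : Fact p.Prime] {G : Type} [Group G] [Fintype G]

/-- The constant functions in a coinduced trivial lattice. -/
def constCoInd (c : Subgroup G) : TrivZ G →+ CoInd c (TrivZ c) :=
  AddMonoidHom.mk' (fun n => CoInd.mk (fun _ => TrivZ.of (TrivZ.of.symm n)) fun _ _ => rfl)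
    fun a b => CoInd.ext fun x => by
      rw [map_add CoInd.fn]
      rfl

theorem fn_constCoInd (c : Subgroup G) (n : TrivZ G) (x : G) :
    CoInd.fn (constCoInd c n) x = TrivZ.of (TrivZ.of.symm n) := rfl

theorem constCoInd_smul (c : Subgroup G) (g : G) (n : TrivZ G) :
    constCoInd c (g • n) = g • constCoInd c n := rfl

theorem constCoInd_injective (c : Subgroup G) : Function.Injective (constCoInd c) := fun a b h => by
  have h1 : TrivZ.of (G := c) (TrivZ.of.symm a) = TrivZ.of (TrivZ.of.symm b) :=
    congrFun (congrArg CoInd.fn h) 1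
  exact TrivZ.of.symm.injective (TrivZ.of.injective h1)

/-- The character of `U` from an ord map with finite coindex whose kernel is, up to finite index,
the regular lattice of `G/c` modulo constants. -/
theorem unitChar_of_maps {ι : Type} [Fintype ι] (H : ι → Subgroup G) [∀ i, Fintype (H i)]
    (c : Subgroup G) [Fintype c] {U : Type} [AddCommGroup U] [DistribMulAction G U]
    (hUfin : ModPFinite p U) (ord : U →+ ∀ i, CoInd (H i) (TrivZ (H i)))
    (hord : ∀ (g : G) (x : U), ord (g • x) = g • ord x) (hordidx : ord.range.index ≠ 0)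
    (Φ : CoInd c (TrivZ c) →+ U) (hΦ : ∀ (g : G) (F : CoInd c (TrivZ c)), Φ (g • F) = g • Φ F)
    (hΦker : Φ.ker = (constCoInd c).range) (hΦord : ∀ F, ord (Φ F) = 0)
    (hΦidx : Φ.range.relIndex ord.ker ≠ 0) :
    UnitChar p H c U := by
  intro C _ hC A _ _ X
  have good : ∀ (M : Type) [AddCommGroup M] [DistribMulAction C M], Good p C M := fun M _ _ =>
    good_of_coprime p C M hC
  have hTC : ModPFinite p (CoInd c (TrivZ c)) := CoInd.modPFinite TrivZ.modPFinite
  have hP : ModPFinite p (∀ i, CoInd (H i) (TrivZ (H i))) :=
    ModPFinite.pi fun i => CoInd.modPFinite TrivZ.modPFinite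
  have sker : IsStable C ord.ker := isStable_ker fun g => hord (g : G)
  have sran : IsStable C ord.range := isStable_range fun g => hord (g : G)
  letI := stableAction sker
  letI := stableAction sran
  have hker : ModPFinite p ord.ker := by
    haveI : Finite (ord.ker ⧸ Φ.range.addSubgroupOf ord.ker) := Nat.finite_of_card_ne_zero hΦidx
    let ψ : CoInd c (TrivZ c) →+ ord.ker := Φ.codRestrict ord.ker hΦord
    have h1 : ψ.range = Φ.range.addSubgroupOf ord.ker := by
      ext x
      exact ⟨fun ⟨y, hy⟩ => ⟨y, congrArg Subtype.val hy⟩, fun ⟨y, hy⟩ => ⟨y, Subtype.ext hy⟩⟩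
    rw [← h1] at this
    exact ModPFinite.ses ψ.range.subtype (QuotientAddGroup.mk' ψ.range) Subtype.val_injective
      (fun y hy => ⟨⟨y, (QuotientAddGroup.eq_zero_iff _).mp hy⟩, rfl⟩)
      (QuotientAddGroup.mk'_surjective _) (fun x => (QuotientAddGroup.eq_zero_iff _).mpr x.2)
      ⟨hUfin.of_injective (ord.ker.subtype.comp ψ.range.subtype)
          (Subtype.val_injective.comp Subtype.val_injective),
        hTC.of_surjective _ ψ.rangeRestrict_surjective⟩ .of_finite
  have hran : ModPFinite p ord.range :=
    ⟨hP.of_injective ord.range.subtype Subtype.val_injective,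
      hUfin.of_surjective ord.rangeRestrict ord.rangeRestrict_surjective⟩
  have e1 : X.index U = X.index ord.ker + X.index ord.range :=
    X.index_add ord.ker.subtype ord.rangeRestrict (fun _ _ => rfl)
      (fun g x => Subtype.ext (hord (g : G) x)) Subtype.val_injective
      (fun y hy => ⟨⟨y, congrArg Subtype.val hy⟩, rfl⟩) (fun x => Subtype.ext x.2)
      ord.rangeRestrict_surjective (good _) hker hran
  have e2 : X.index ord.range = ∑ i, X.index (CoInd (H i) (TrivZ (H i))) := by
    haveI : Finite (ord.range.subtype).ker := by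
      haveI : Subsingleton (ord.range.subtype).ker :=
        ⟨fun x y => Subtype.ext (Subtype.ext (x.2.trans y.2.symm))⟩
      infer_instance
    rw [X.index_eq_of_finiteIndex hC ord.range.subtype (fun _ _ => rfl)
      (by rw [AddSubgroup.range_subtype]; exact hordidx) hran hP,
      X.index_pi fun i => CoInd.modPFinite TrivZ.modPFinite]
  have sΦ : IsStable C Φ.range := isStable_range fun g => hΦ (g : G)
  letI := stableAction sΦ
  have hΦran : ModPFinite p Φ.range :=
    ⟨hUfin.of_injective Φ.range.subtype Subtype.val_injective,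
      hTC.of_surjective Φ.rangeRestrict Φ.rangeRestrict_surjective⟩
  have e3 : X.index (CoInd c (TrivZ c)) = X.index (TrivZ G) + X.index Φ.range :=
    X.index_add (constCoInd c) Φ.rangeRestrict (fun g x => constCoInd_smul c (g : G) x)
      (fun g x => Subtype.ext (hΦ (g : G) x)) (constCoInd_injective c)
      (fun y hy => by
        have h : y ∈ Φ.ker := congrArg Subtype.val hy
        rw [hΦker] at h
        exact h)
      (fun x => Subtype.ext (by
        have h : constCoInd c x ∈ Φ.ker := by rw [hΦker]; exact ⟨x, rfl⟩
        exact h))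
      Φ.rangeRestrict_surjective (good _) TrivZ.modPFinite hΦran
  let incl : Φ.range →+ ord.ker := AddSubgroup.inclusion (by
    rintro _ ⟨F, rfl⟩
    exact hΦord F)
  haveI : Finite incl.ker := by
    haveI : Subsingleton incl.ker :=
      ⟨fun x y => Subtype.ext (AddSubgroup.inclusion_injective _ (x.2.trans y.2.symm))⟩
    infer_instance
  have hidx : incl.range.index ≠ 0 := by
    rw [show incl.range = Φ.range.addSubgroupOf ord.ker by
      ext x
      exact ⟨fun ⟨y, hy⟩ => hy ▸ y.2, fun h => ⟨⟨x.1, h⟩, Subtype.ext rfl⟩⟩]
    exact hΦidx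
  have e4 : X.index Φ.range = X.index ord.ker :=
    X.index_eq_of_finiteIndex hC incl (fun _ _ => rfl) hidx hΦran hker
  omega

end Fermat.Agent.CFT.Euler
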