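import Fermat.Agent.CFT.Euler.Lattices

/-!
The Euler index with coefficients in the trivial lattice, for a group of order prime to `p`.
-/

set_option autoImplicit false
set_option linter.unusedSectionVars false
set_option linter.style.haveILetI false

noncomputable section

namespace Fermat.Agent.CFT.Euler

open Fermat.Agent.CFT

variable (p : ℕ) (G : Type) [Group G] (A : Type) [AddCommGroup A] [DistribMulAction G A]

/-- Invariant functionals. -/
def fixDual : AddSubgroup (A →+ ZMod p) where
  carrier := {ν | ∀ (g : G) (a : A), ν (g • a) = ν a}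
  add_mem' {ν ν'} h h' g a := by
    show ν (g • a) + ν' (g • a) = ν a + ν' a
    rw [h, h']
  zero_mem' _ _ := rfl
  neg_mem' {ν} h g a := by
    show -ν (g • a) = -ν a
    rw [h]

variable {p G A} [Fintype G] [hp : Fact p.Prime] (X : Pres p G A)

/-- The index with coefficients in the trivial lattice. -/
theorem Pres.index_trivZ (hG : Nat.Coprime p (Nat.card G)) :
    X.index (TrivZ G) = lpN p (Nat.card (fixDual p G A)) := by
  classical
  haveI := free_subgroup (P := X.P) X.S
  let μ : X.K →+ X.S := (mulP X.level).comp X.K.subtype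
  let red : TrivZ G →+ ZMod p := (Int.castAddHom (ZMod p)).comp TrivZ.of.symm.toAddMonoidHom
  have hred : ∀ n : TrivZ G, red n = 0 → ∃ m : TrivZ G, p • m = n := fun n hn => by
    obtain ⟨m, hm⟩ := (ZMod.intCast_zmod_eq_zero_iff_dvd (TrivZ.of.symm n) p).mp hn
    exact ⟨TrivZ.of m, by rw [← map_nsmul, nsmul_eq_mul, ← hm, TrivZ.of.apply_symm_apply]⟩
  have hinj : ∀ m : TrivZ G, p • m = 0 → m = 0 := fun m hm => by
    have h := congrArg TrivZ.of.symm hm
    rw [map_nsmul, map_zero, nsmul_eq_mul] at h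
    exact TrivZ.of.symm.injective
      (((mul_eq_zero.mp h).resolve_left (Nat.cast_ne_zero.mpr hp.out.ne_zero)).trans
        (map_zero _).symm)
  have hredp : ∀ m : TrivZ G, red (p • m) = 0 := fun m => by
    rw [map_nsmul, nsmul_eq_mul, ZMod.natCast_self, zero_mul]
  let δ : equivHom (C := TrivZ G) X.hS →+ fixDual p G A :=
    (X.conn red hredp).codRestrict _ fun f g a => by
      obtain ⟨x, rfl⟩ := X.surj a
      rw [X.conn_smul, X.conn_apply, TrivZ.smul_eq]
  have hδ : Function.Surjective δ := by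
    intro ν
    obtain ⟨g₀, hg₀⟩ := X.exists_mulP_eq (N := ZMod p)
      (fun m => by rw [nsmul_eq_mul, ZMod.natCast_self, zero_mul]) ν.1
    let b := Module.Free.chooseBasis ℤ X.S
    let W : X.S →+ TrivZ G :=
      (b.constr ℤ fun i => (TrivZ.of (((g₀ (b i)).val : ℤ)) : TrivZ G)).toAddMonoidHom
    have hW : ∀ s, red (W s) = g₀ s := by
      have e : (red.comp W).toIntLinearMap = g₀.toIntLinearMap := b.ext fun i => by
        show red (b.constr ℤ _ (b i)) = g₀ (b i)
        rw [Module.Basis.constr_basis]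
        show ((TrivZ.of.symm (TrivZ.of (((g₀ (b i)).val : ℤ)) : TrivZ G) : ℤ) : ZMod p) = _
        rw [TrivZ.of.symm_apply_apply, Int.cast_natCast, ZMod.natCast_zmod_val]
      exact fun s => LinearMap.congr_fun e s
    obtain ⟨a, c, hac⟩ : IsCoprime (p : ℤ) (Nat.card G : ℤ) := Nat.isCoprime_iff_coprime.mpr hG
    refine ⟨⟨c • normOn X.hS W, fun g s => ?_⟩, Subtype.ext (AddMonoidHom.ext fun z => ?_)⟩
    · show c • normOn X.hS W (smulS X.hS g s) = g • c • normOn X.hS W s
      rw [isEquivariantOn_normOn X.hS W g s, TrivZ.smul_eq, TrivZ.smul_eq]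
    obtain ⟨x, rfl⟩ := X.surj z
    refine (X.conn_apply _ _ _ x).trans ?_
    show red (c • normOn X.hS W (μ x)) = ν.1 (X.π x)
    rw [map_zsmul, normOn_apply, map_sum]
    have hterm : ∀ g : G, red (g • W (smulS X.hS g⁻¹ (μ x))) = ν.1 (X.π x) := fun g => by
      rw [TrivZ.smul_eq, hW]
      show g₀ (smulS X.hS g⁻¹ (mulP X.level (x : X.P))) = _
      rw [smulS_mulP, ← coe_smulS X.hK g⁻¹ x, hg₀, X.equi, ν.2]
    rw [Finset.sum_congr rfl fun g _ => hterm g, Finset.sum_const, Finset.card_univ,
      ← Nat.card_eq_fintype_card, ← natCast_zsmul, smul_smul]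
    calc (c * (Nat.card G : ℤ)) • ν.1 (X.π x)
        = (a * (p : ℤ) + c * (Nat.card G : ℤ)) • ν.1 (X.π x) := by
          rw [add_smul, zsmul_eq_mul (ν.1 _) (a * (p : ℤ)), Int.cast_mul, Int.cast_natCast,
            ZMod.natCast_self, mul_zero, zero_mul, zero_add]
      _ = _ := by rw [hac, one_smul]
  have hrange : (X.res (TrivZ G)).range = δ.ker := by
    refine le_antisymm ?_ fun f hf => ?_
    · rintro _ ⟨g, rfl⟩
      exact Subtype.ext (X.conn_res _ _ g)
    · have hdiv : ∀ x : X.K, ∃ m : TrivZ G, p • m = f.1 (μ x) := fun x => hred _ (by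
        have h := DFunLike.congr_fun (congrArg Subtype.val (AddMonoidHom.mem_ker.mp hf)) (X.π x)
        exact (X.conn_apply _ _ f x).symm.trans h)
      choose φ hφ using hdiv
      have huniq : ∀ {m m' : TrivZ G}, p • m = p • m' → m = m' := fun h =>
        sub_eq_zero.mp (hinj _ (by rw [smul_sub, h, sub_self]))
      let g : X.K →+ TrivZ G := AddMonoidHom.mk' φ fun x y => huniq (by
        rw [smul_add, hφ, hφ, hφ, map_add, map_add])
      refine ⟨⟨g, fun h x => huniq ?_⟩, Subtype.ext (AddMonoidHom.ext fun s => huniq ?_)⟩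
      · show p • φ _ = p • h • φ x
        rw [hφ, smul_comm p h, hφ,
          show μ (smulS X.hK h x) = smulS X.hS h (μ x) from
            Subtype.ext (smul_comm h p (x : X.P)).symm, f.2]
      · show p • φ _ = p • f.1 s
        rw [hφ, ← map_nsmul]
        rfl
  have hres : Nat.card (X.res (TrivZ G)).ker = 1 := by
    rw [AddSubgroup.card_eq_one, AddSubgroup.eq_bot_iff_forall]
    refine fun g hg => Subtype.ext (AddMonoidHom.ext fun x => hinj _ ?_)
    rw [← map_nsmul]
    exact (resHom_eq_zero_iff X.hK X.hS X.le g).mp hg (p • x) (X.level x)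
  rw [Pres.index, lpIndex, hrange, hres, AddSubgroup.index_ker, AddMonoidHom.range_eq_top.mpr hδ,
    AddSubgroup.card_top, lpN_one, sub_zero]

end Fermat.Agent.CFT.Euler
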